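import Fermat.Agent.LevelLowering.Core.Bottom
import Fermat.Agent.LevelLowering.Outer.Main
import Fermat.Agent.LevelLowering.Outer.Transfer
import Fermat.Agent.Eigenforms.Lifting

/-!
# Removing an auxiliary prime

An auxiliary prime `E` at which the residual trace avoids `± (E + 1)` can be removed from the level
(`residual_remove_prime`): a congruent newform with `E` exactly dividing its level would be of
Steinberg type there.
-/

set_option autoImplicit false

noncomputable section

open IsLocalRing WeierstrassCurve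

namespace FLTAgent.SemistableThree

open FLTAgent.Density (GalQ Qbar)
open FLTAgent.DefRing FLTAgent.ModularityLifting FLTAgent.GaloisAttach FLTAgent.LevelRaising
  FLTAgent.HeckePoints FLTAgent.LevelLowering

/-- Residual modularity of level `N E` descends to level `N` when the residual trace at the good
prime `E` avoids `± (E + 1)`. -/
theorem residual_remove_prime {p : ℕ} [Fact p.Prime] (hp2 : p ≠ 2) {W : WeierstrassCurve ℤ}
    (hΔ : W.Δ ≠ 0) (hW : W.IsSemistableModel) (hirr : W.ModRepIsIrreducible p) {N E : ℕ}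
    [NeZero N] (hE : E.Prime) (hEN : ¬ E ∣ N) (hEp : E ≠ p) (hgood : W.IsGoodPrimeFor E)
    (hell : p = 3 → ∃ s, s.Prime ∧ s ∣ N * E ∧ s % 3 = 2)
    (htr : ((W.apOfModel E : ℤ) : ZMod p) ^ 2 ≠ ((E : ZMod p) + 1) ^ 2)
    (hres : W.IsResiduallyModularOfLevel p (N * E)) : W.IsResiduallyModularOfLevel p N := by
  classical
  have hp : p.Prime := Fact.out
  obtain ⟨C₀⟩ := exists_curveResidual hp2 W hΔ hW hirr (RingHom.id (ResidueField (Start.Coeff p)))
  set O := Start.Coeff p
  set L := N * E with hLdef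
  have : NeZero L := ⟨mul_ne_zero (NeZero.ne N) hE.ne_zero⟩
  set S : Finset ℕ := (L * p).primeFactors ∪ Start.badPrimes W
  have hSp : ∀ q, q.Prime → q ∣ L * p → q ∈ S := fun q hq h => Finset.mem_union_left _
    (Nat.mem_primeFactors.mpr ⟨hq, h, mul_ne_zero (NeZero.ne L) hp.ne_zero⟩)
  have hSL : ∀ q, q.Prime → q ∣ L → q ∈ S := fun q hq hd => hSp q hq (hd.mul_right p)
  have hpS : p ∈ S := hSp p hp (dvd_mul_left p L)
  have hout : ∀ q, q.Prime → q ∉ S → W.IsGoodPrimeFor q ∧ q ≠ p ∧ ¬ q ∣ L := fun q hq h =>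
    ⟨fun hd => h (Finset.mem_union_right _ ((Start.mem_badPrimes hΔ).mpr ⟨hq, hd⟩)),
      fun e => h (e ▸ hpS), fun hd => h (hSL q hq hd)⟩
  set a : ℕ → O := fun l =>
    Function.surjInv residue_surjective (W.apOfModel l : ResidueField O)
  have ha' : ∀ l, residue O (a l) = (W.apOfModel l : ResidueField O) := fun l =>
    Function.surjInv_eq residue_surjective _
  have ha : ∀ q, q.Prime → q ∉ S → ∀ P : ValuationSubring Qbar, P.LiesOverPrime q →
      ∀ φ, P.IsFrobeniusAt φ q → residue O (a q) = (C₀.R.rep φ).trace :=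
      fun q hq hqS P hP φ hφ => by
    rw [ha', C₀.trace_good q hq (hout q hq hqS).1 (hout q hq hqS).2.1 P hP φ hφ]
  have hbot : eigenPart (ResidueField O) (1 : DirichletCharacter (ResidueField O) L) S
      (residue O ∘ a) ≠ ⊥ := by
    obtain ⟨f, 𝔪, hf, hmax, hpm, hfa⟩ := hres
    obtain ⟨Φ, hΦ, hΦ0, hev⟩ := LocalThree.exists_residual_symb (ResidueField O) hf hmax hpm
      W.apOfModel (fun q => q ∉ S) fun q hq hqL h =>
        hfa q hq (hout q hq h).1 hqL (hout q hq h).2.1
    refine fun e => hΦ0 ((Submodule.eq_bot_iff _).mp e Φ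
      ((mem_eigenPart_one_iff hSL).mpr ⟨hΦ, fun q hq hqS => ⟨1, ?_⟩⟩))
    rw [pow_one, tShift_apply, hev q hq (hout q hq hqS).2.2 hqS, Function.comp_apply, ha', sub_self]
  obtain ⟨C, _, _, _, _, _, _, _, _, _, j, Φ, c, hj, hpC, hΦ, hΦ0, hΦa, hcres⟩ :=
    exists_eigensymbol_of_ne_bot hp2 hell hSp (exists_ne_eisenstein C₀.R hp2 ha) hbot
  have : CharZero (Kbar O) := charZero_of_injective_ringHom (algebraMap_kbar_injective O)
  set ι := ResidueField.map (algebraMap O C)
  have hresR : ∀ q, q.Prime → q ∉ S → ∀ P : ValuationSubring Qbar, P.LiesOverPrime q →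
      ∀ σ, P.IsFrobeniusAt σ q → residue C (c q) = ι (C₀.R.rep σ).trace :=
    fun q hq hqS P hP σ hσ => by rw [hcres q hq hqS, ha q hq hqS P hP σ hσ]
  obtain ⟨f, hf, Ψ, -, -, -, M', hM'0, g, hM', hnew⟩ := exists_point_newform (hpC := hpC) j hj ∅
    (by simp) (fun t => (1 : DirichletCharacter C t)) (by simp) (M := L) (NeZero.ne _) (by simp)
    (L := L) (by simp) (1 : DirichletCharacter C L)
    (fun x hx => by rw [MulChar.one_apply hx, Finset.prod_empty]) S hpS hSL c
    (by rw [MulChar.ringHomComp_one, symbChar_eq_lev]; exact hΦ) hΦ0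
    (fun q hq hqS => by
      rw [MulChar.ringHomComp_one, tOpChar_one hq (hout q hq hqS).2.2]
      exact hΦa q hq (hout q hq hqS).2.2)
    hp2 C₀.R ι S subset_rfl (fun q hq hqS P hP σ hσ => by
      rw [Finset.prod_empty, one_mul]; exact hresR q hq hqS P hP σ hσ)
  simp only [Finset.prod_empty, one_mul] at hf
  simp only [Finset.prod_empty, mul_one] at hM'
  obtain ⟨ρ, hρ, hdet, hρtr, hρres⟩ := hf.exists_rep hp2 hpS mem_maximalIdeal_of_charP C₀.R hresR
  have H := hnew ρ hρ hdet hρtr
  have htres : ∀ σ, residue C (ρ σ).trace = ι (C₀.R.rep σ).trace := fun σ => by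
    rw [← Start.mapRep_trace, hρres, Start.mapRep_trace]
  by_cases hEM : E ∣ M'
  · exfalso
    have hE2 : ¬ E ^ 2 ∣ M' := fun h => hEN (by
      have h2 := h.trans hM'
      rw [hLdef, pow_two] at h2
      exact Nat.dvd_of_mul_dvd_mul_right hE.pos h2)
    obtain ⟨ε, hε, hst⟩ := H.steinbergAt hp2
      (by rw [hρres]; exact LevelLowering.absIrreducibleOn_map ι C₀.R.irr) hE hEp hEM hE2
    obtain ⟨P, hP⟩ := Density.exists_liesOverPrime hE
    obtain ⟨σ, hσ⟩ := Density.exists_isFrobeniusAt P hE hP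
    have h := congrArg (residue C) ((hst P hP).2 σ hσ)
    rw [htres, C₀.trace_good E hE hgood hEp P hP σ hσ] at h
    simp only [map_mul, map_add, map_one, map_natCast, map_intCast] at h
    have : CharP (ResidueField C) p := charP_of_injective_ringHom ι.injective p
    set z : ZMod p →+* ResidueField C := ZMod.castHom dvd_rfl (ResidueField C)
    refine htr (z.injective ?_)
    simp only [map_pow, map_add, map_one, map_natCast, map_intCast]
    rw [h, mul_pow]
    rcases hε with rfl | rfl <;> simp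
  · have : NeZero M' := hM'0
    have hM'N : M' ∣ N := (Nat.Coprime.dvd_of_dvd_mul_right
      ((Nat.Prime.coprime_iff_not_dvd hE).mpr hEM).symm hM')
    obtain ⟨θ, -, hθ⟩ := H.char
    have : CharP (ResidueField C) p := charP_of_injective_ringHom ι.injective p
    obtain ⟨f', hf', 𝔪, hmax, hpm, hcong, -⟩ := Eigenforms.exists_eigenform_congruent
      (MFIntegral.hasIntegralStructure M' 2) hp ((residue C).comp θ)
    refine Start.residual_of_dvd hM'N
      (residual_of_congr_almostAll hΔ hf' hmax hpm S fun q hq hqS hg hqM hqp => ?_)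
    obtain ⟨P, hP⟩ := Density.exists_liesOverPrime hq
    obtain ⟨σ, hσ⟩ := Density.exists_isFrobeniusAt P hq hP
    have hqS' : q ∉ (S : Set ℕ) := fun h => hqS (Finset.mem_coe.mp h)
    obtain ⟨x, hx, hx'⟩ := hcong (CuspForm.heckeAlgebra.T hq hqM hqS') (W.apOfModel q) (by
      rw [RingHom.comp_apply, ← hθ q hq hqM hqS' P hP σ hσ, htres,
        C₀.trace_good q hq hg hqp P hP σ hσ, map_intCast])
    exact ⟨x, hx.trans (Eigenforms.eigenChar_T _ hq hqM hqS'), hx'⟩

end FLTAgent.SemistableThree

end
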