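import Fermat.Agent.MazurGeneral.Principle
import Fermat.Agent.ModularityLifting.Start.Level

/-!
# Lowering at `p` for a semistable curve

`atPLowering`: the case of Mazur's principle `residual_div_of_semistableAt` used by modularity
lifting, for squarefree levels and every odd prime `p`, including `p = 3`.
-/

set_option autoImplicit false

noncomputable section

open WeierstrassCurve

namespace FLTAgent.SemistableThree

/-- **Lowering at `p`**, for every odd prime. -/
theorem atPLowering (p : ℕ) [Fact p.Prime] (hp2 : p ≠ 2) (W : WeierstrassCurve ℤ) (hΔ : W.Δ ≠ 0)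
    (hW : W.IsSemistableModel) (hirr : W.ModRepIsIrreducible p) :
    ModularityLifting.Start.LowerAtPInput p W := by
  intro M hM hpM hloc hres
  have hp : p.Prime := Fact.out
  refine MazurGeneral.residual_div_of_semistableAt W hΔ hp hp2 (hW p hp) hirr ?_
    (Nat.pos_of_ne_zero hM.ne_zero) hpM (fun h => hp.not_isUnit (hM p (by rwa [← pow_two]))) hres
  by_cases hg : W.IsGoodPrimeFor p
  · exact Or.inl hg
  · exact Or.inr ⟨not_not.mp hg, hloc.resolve_left hg⟩

end FLTAgent.SemistableThree

end
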