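import Fermat.Agent.ModularFF.Genus
import Fermat.Agent.Deuring.ModularModel
import Fermat.Agent.Semistable.Instance

/-!
# No elliptic points of order three

With a prime `2 (mod 3)` in the level there are no elliptic points of order three
(`nuThree_eq_zero`), so every zero of `j` on `X₀(N)` has order three (`ord_jElt_eq_three`) and on
a good reduction all orders of `j` outside the cusps are divisible by three
(`three_dvd_ord_jFb`).
-/

set_option autoImplicit false

noncomputable section

open AlgebraicCurve ModularCurve FLTAgent.FFBasic UpperHalfPlane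
open scoped MatrixGroups

namespace FLTAgent.ModularFF

/-- A prime `2 (mod 3)` in the level leaves no elliptic points of order three. -/
theorem nuThree_eq_zero {N E : ℕ} [NeZero N] (hE : E.Prime) (hE3 : E % 3 = 2) (hdvd : E ∣ N) :
    ModularCurve.nuThree N = 0 := by
  have : Fact E.Prime := ⟨hE⟩
  rw [ModularCurve.nuThree, Nat.card_eq_zero]
  refine Or.inl ⟨fun ⟨x, hx⟩ => ?_⟩
  have hy := congrArg (ZMod.castHom hdvd (ZMod E)) hx
  rw [map_add, map_add, map_pow, map_one, map_zero] at hy
  set y := ZMod.castHom hdvd (ZMod E) x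
  have h0 : y ≠ 0 := fun h => by simp [h] at hy
  have h3 : y ^ 3 = 1 := by linear_combination (y - 1) * hy
  have h1 : y = 1 := by
    have hf := ZMod.pow_card_sub_one_eq_one h0
    have hk : E - 1 = 3 * ((E - 1) / 3) + 1 := by omega
    rw [hk, pow_succ, pow_mul, h3, one_pow, one_mul] at hf
    exact hf
  rw [h1] at hy
  have h4 : ((3 : ℕ) : ZMod E) = 0 := by
    push_cast
    linear_combination hy
  rw [ZMod.natCast_eq_zero_iff] at h4
  have := (Nat.prime_dvd_prime_iff_eq hE Nat.prime_three).mp h4
  omega

section Bound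

variable {K F : Type*} [Field K] [IsAlgClosed K] [Field F] [Algebra K F] [IsFunctionField K F]
  [Algebra K ℂ] {X : Type*} [Fintype X]

/-- Every zero of `t` is the place of one of the expansions. -/
theorem exists_expansion_eq (φ : X → F →ₐ[K] LaurentSeries ℂ) (hinj : Function.Injective φ)
    {t : F} (ht : Transcendental K t)
    (hdeg : Module.finrank (IntermediateField.adjoin K {t}) F = Fintype.card X)
    (T : LaurentSeries ℂ) (hT : ∀ x, φ x t = T) {e : ℕ} (he : 0 < e) (hTe : T.order = e)
    {v : Place K F} (hv : 0 < v.ord t) :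
    ∃ (x : X) (k : ℤ), 0 < k ∧ ∀ f : F, f ≠ 0 → (φ x f).order = k * v.ord f := by
  classical
  obtain ⟨P, k, -, hk, hord, -, -, himage, -⟩ :=
    zeros_eq_places_of_expansions φ hinj ht hdeg T hT he hTe
  obtain ⟨x, -, rfl⟩ := Finset.mem_image.mp
    (himage.ge ((Set.Finite.mem_toFinset _).mpr hv) : v ∈ Finset.univ.image P)
  exact ⟨x, k x, hk x, hord x⟩

/-- The order of every zero of `t` divides the common order `e` of its expansions. -/
theorem ord_dvd_of_expansions (φ : X → F →ₐ[K] LaurentSeries ℂ) (hinj : Function.Injective φ)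
    {t : F} (ht : Transcendental K t)
    (hdeg : Module.finrank (IntermediateField.adjoin K {t}) F = Fintype.card X)
    (T : LaurentSeries ℂ) (hT : ∀ x, φ x t = T) {e : ℕ} (he : 0 < e) (hTe : T.order = e)
    {v : Place K F} (hv : 0 < v.ord t) : v.ord t ∣ (e : ℤ) := by
  obtain ⟨x, k, -, hx⟩ := exists_expansion_eq φ hinj ht hdeg T hT he hTe hv
  have := hx t fun h => ht (h ▸ isAlgebraic_zero)
  rw [hT, hTe] at this
  exact Dvd.intro_left _ this.symm

end Bound

variable (L : Type*) [Field L] [Algebra ℚ L] [Algebra L ℂ] [IsAlgClosed L] [CharZero L]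
variable (N : ℕ) [NeZero N]

omit [CharZero L] in
/-- Without elliptic points of order three every zero of `j` has order three. -/
theorem ord_jElt_eq_three (hν : ModularCurve.nuThree N = 0) {v : Place L (modField L N)}
    (hv : 0 < v.ord (jElt L N)) : v.ord (jElt L N) = 3 := by
  classical
  have : CharZero L := algebraRat.charZero L
  have : Fintype (Cosets N) := Fintype.ofFinite _
  set R := pointRule N rhoPt
  have hj0 : jElt L N - algebraMap L (modField L N) 0 = jElt L N := by rw [map_zero, sub_zero]
  have hord : analyticOrderAt ((fun τ => jFun τ - algebraMap L ℂ 0) ∘ ofComplex) (rhoPt : ℂ) =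
      ((3 : ℕ) : ℕ∞) := by
    simpa [Function.comp_def] using analyticOrderAt_jFun_of_E₄ E₄_rhoPt
  have hrel : ∀ x, R.Rel (fun τ => jFun τ - algebraMap L ℂ 0)
      (cosetHom L R x (jElt L N - algebraMap L (modField L N) 0)) := by
    intro x
    rw [map_sub, AlgHom.commutes, algebraMap_laurent_complex]
    exact R.sub (cosetHom_jElt R x) (R.const (algebraMap L ℂ 0))
  have hdvd : ∀ w : Place L (modField L N), 0 < w.ord (jElt L N) →
      w.ord (jElt L N) ∣ ((3 : ℕ) : ℤ) := by
    intro w hw
    have := ord_dvd_of_expansions (v := w) (cosetHom L R) (cosetHom_injective R)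
      (transcendental_jElt_sub L N 0)
      (by
        rw [adjoin_jElt_sub, finrank_adjoin_jElt L N, Subgroup.index, Nat.card_eq_fintype_card])
      (cosetHom L R (QuotientGroup.mk 1) (jElt L N - algebraMap L (modField L N) 0))
      (fun x => R.unique (hrel x) (hrel _)) (e := 3) (by norm_num)
      (HasDisc.order_eq (mdiff_jFun.sub mdifferentiable_const) (hrel _) hord)
      (by rw [hj0]; exact hw)
    rwa [hj0] at this
  obtain ⟨hcard, hsum⟩ := zerosAt_spec (L := L) (N := N) (c := 0) (τ₀ := rhoPt)
    (e := 3) (by norm_num) hord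
    (ModularGroup.S * ModularGroup.T) inv_ST_smul_rho
    (by rw [rotFactor_rhoPt]; exact isPrimitiveRoot_rhoPt)
  simp only [hj0] at hsum
  have h3 := MFDim.three_mul_orbCount_ST_eq N
  rw [hν, mul_zero, add_zero, ← MFDim.index_Gamma0_eq_dedekindPsi] at h3
  have hle : ∀ w ∈ zerosAt L N 0, w.ord (jElt L N) ≤ 3 := fun w hw => by
    have hp : 0 < w.ord (jElt L N) := by simpa [hj0] using mem_zerosAt.mp hw
    exact Int.le_of_dvd (by norm_num) (hdvd w hp)
  have hzero : ∑ w ∈ zerosAt L N 0, (3 - w.ord (jElt L N)) = 0 := by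
    rw [Finset.sum_sub_distrib, hsum, Finset.sum_const, hcard, nsmul_eq_mul, ← h3]
    push_cast
    exact sub_eq_zero.mpr (by rw [mul_comm])
  have := (Finset.sum_eq_zero_iff_of_nonneg fun w hw => by linarith [hle w hw]).mp hzero v
    (mem_zerosAt.mpr (by rw [hj0]; exact hv))
  linarith

end FLTAgent.ModularFF

namespace FLTAgent.Deuring.Modular

local notation "Qbar" => AlgebraicClosure ℚ

variable {A : ValuationSubring Qbar} {k : Type} [Field k] [IsAlgClosed k] {π : A →+* k} {N : ℕ}
  [NeZero N]

/-- On a good reduction of `X₀(N)`, with a prime `2 (mod 3)` in `N`, the orders of `j` off the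
cusps are divisible by three. -/
theorem three_dvd_ord_jFb (H : GoodReduction.X0GoodReduction A π N) (hπ : Function.Surjective π)
    {E : ℕ} (hE : E.Prime) (hE3 : E % 3 = 2) (hdvd : E ∣ N)
    {Q : Place k (modularFunctionFieldFullC k N)} (hQ : 0 ≤ Q.ord (jFb (k := k) N)) :
    3 ∣ Q.ord (jFb (k := k) N) := by
  classical
  have := isFunctionFieldL H
  have := isFunctionFieldk H
  let : Algebra Qbar ℂ := FLTAgent.HeckeJacobian.qbarToC.toAlgebra
  set C := reduction H hπ
  set T := atlasX0 H hπ
  have hresx : C.res T.X.x = jFb (k := k) N := ((model H hπ).res_toO _).trans (red_jF H)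
  have hxF : (T.X.x : FF Qbar N) = ModularFF.jElt Qbar N := Subtype.ext (by
    rw [ModularFF.coe_jElt]; rfl)
  have hne : C.res T.X.x ≠ 0 := by
    rw [hresx]
    exact fun h => transcendental_jFb (k := k) N (h ▸ isAlgebraic_zero)
  have h := T.isReductionMap.2 T.X.x hne (divFun (K := Qbar) (T.X.x : FF Qbar N))
    (fun P => divFun_apply _ P) Q
  rw [hresx] at h
  rw [← h, Finsupp.mapDomain, Finsupp.sum_apply]
  refine Finset.dvd_sum fun P _ => ?_
  show 3 ∣ (Finsupp.single (T.placeMap P) _) Q
  rw [Finsupp.single_apply]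
  split_ifs with hP
  · rw [divFun_apply]
    have hin : T.X.InChart P := T.inChart_iff.mpr (by rw [hresx, hP]; exact hQ)
    rcases eq_or_lt_of_le hin.ord_nonneg with h0 | hpos
    · rw [← h0]; exact dvd_zero 3
    · rw [hxF] at hpos ⊢
      rw [ModularFF.ord_jElt_eq_three Qbar N (ModularFF.nuThree_eq_zero hE hE3 hdvd) hpos]
  · exact dvd_zero 3

end FLTAgent.Deuring.Modular

end
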