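import Fermat.Agent.SemistableEisenstein.SlopeHecke

/-!
# Slopes divided by a common factor

Slopes proportional to the widths divided by a common factor have Eisenstein Hecke eigenvalues
(`slope₁_hecke_div`); used in `MazurGeneral.SlopeThreeAll` and
`SemistableFinals.PrincipleSlope`.
-/

set_option autoImplicit false

noncomputable section

open AlgebraicCurve ModularCurve IsLocalRing FLTAgent.HeckeJacobian FLTAgent.Semistable.Level
open FLTAgent.FFBasic

namespace FLTAgent.Semistable.Eisenstein

local notation "Qbar" => AlgebraicClosure ℚ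

variable {A : ValuationSubring Qbar} {M q : ℕ} [NeZero M] [Fact q.Prime]
  (S : Setting M q A (residue A))
variable [IsAlgClosed (ResidueField A)] [CharP (ResidueField A) q]
variable [IsFunctionField (ResidueField A) (modularFunctionFieldFullC (ResidueField A) M)]
variable [IsFunctionField Qbar (modularFunctionFieldBar (M * q))]
variable {m : ℕ} [NeZero m]

/-- Slopes proportional to the orders of `Δ(τ)/Δ(qτ)` at the crossings divided by a common
divisor of them are Eisenstein for the Hecke operators at good primes. -/
theorem slope₁_hecke_div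
    (hk : (hbar S : LaurentSeries (ResidueField A)) ∈
      IntermediateField.adjoin (ResidueField A) {jqModC (ResidueField A)})
    {ℓ : ℕ} (hℓ : ℓ.Prime) (hℓN : ¬ ℓ ∣ M * q) {x : JZero (M * q)} (hx : m • x = 0)
    {g : ℕ} (hg : g ≠ 0) (hgw : ∀ s : nodeSet S, (g : ℤ) ∣ (node₁ S s).ord (hbar S))
    {a : ZMod m} (ha : ∀ s, (pairReduction S hk).slope₁ m x s =
      a * (((node₁ S s).ord (hbar S) / (g : ℤ) : ℤ) : ZMod m))
    (s : nodeSet S) :
    (pairReduction S hk).slope₁ m (heckeOperatorBar (M * q) ⟨ℓ, hℓ⟩ x) s =
      ((ℓ : ZMod m) + 1) * (pairReduction S hk).slope₁ m x s :=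
  slope₁_hecke_pairReduction S hk hℓ hℓN hx hg (w := fun t => t.ord (hbar S) / (g : ℤ))
    (fun t ht => (Int.mul_ediv_cancel' (hgw ⟨t, ht⟩)).symm) ha s

end FLTAgent.Semistable.Eisenstein

end
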