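import Fermat.Agent.SemistableThree.Elliptic
import Fermat.Agent.SemistableThree.CommonFactor
import Fermat.Agent.SemistableSplit.SlopeEisenstein
import Fermat.Agent.SemistableFinals.MazurAssembly

/-!
# The function `Δ(τ)/Δ(3τ)` in characteristic three

`hbar_eq_sq`: its reduction is `j ^ 2`; used by `MazurGeneral.SlopeThreeAll` to read the widths
of the nodes at `p = 3` off the orders of `j`.
-/

set_option autoImplicit false

noncomputable section

open AlgebraicCurve ModularCurve FLTAgent.HeckeJacobian FLTAgent.FFBasic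
open FLTAgent.Semistable FLTAgent.Semistable.Level

namespace FLTAgent.SemistableThree

local notation "Qbar" => AlgebraicClosure ℚ

/-- In characteristic three `E₄ = 1` and `j = 1/Δ`. -/
theorem jqModC_mul_delta (K : Type*) [Field K] [CharP K 3] :
    jqModC K * Eisenstein.deltaOver K = 1 := by
  have hE : eisenstein4.map (Int.castRingHom K) = 1 := by
    ext n
    rw [PowerSeries.coeff_map, eisenstein4, PowerSeries.coeff_mk, PowerSeries.coeff_one]
    rcases eq_or_ne n 0 with rfl | hn
    · simp
    · rw [if_neg hn, if_neg hn, map_mul, eq_intCast]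
      have h240 : ((240 : ℤ) : K) = 0 := (CharP.intCast_eq_zero_iff K 3 240).mpr (by norm_num)
      rw [h240, zero_mul]
  rw [jqModC, Eisenstein.deltaOver, jNum, map_mul, map_pow, hE, one_pow, one_mul,
    mul_mul_mul_comm, HahnSeries.single_mul_single, mul_comm (HahnSeries.ofPowerSeries ℤ K _),
    Eisenstein.eta_mul_etaInv]
  simp

variable {M : ℕ} [NeZero M] [Fact (3 : ℕ).Prime] {A : ValuationSubring Qbar}
  [IsAlgClosed (IsLocalRing.ResidueField A)] [CharP (IsLocalRing.ResidueField A) 3]
  (S : Semistable.Level.Setting M 3 A (IsLocalRing.residue A))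

theorem hbar_eq_sq : hbar S = Deuring.Modular.jFb (k := IsLocalRing.ResidueField A) M ^ 2 := by
  have hΔ := Eisenstein.deltaOver_ne_zero (IsLocalRing.ResidueField A)
  refine Subtype.ext (mul_right_cancel₀ (pow_ne_zero 2 hΔ) ?_)
  rw [coe_hbar, SubmonoidClass.coe_pow, Deuring.Modular.coe_jFb, ← mul_pow, jqModC_mul_delta,
    one_pow]
  exact Eisenstein.unitSeries_mul_delta_pow 3 (IsLocalRing.ResidueField A)

end FLTAgent.SemistableThree

end
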